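/-
GATE-N / S48-TOP assembly, HEDGE (helper83): the FROZEN S48 conclusion from the two remaining
inputs — `N8.ChebInputs` (Chebotarev, number field side) and `GateModL'` (the mod `ℓ`
representations of the port, board 3384 (B)).  Everything else is on main:
`N2.gateSparse`, `N2.coeff_fg` (helper38), `N1.gateRankin2` (helper10),
`N8.weightedChebLower_of_chebInputs` (helper1), `N6.s48_of_gates_fg` (helper51),
`G6.boundedModL_of_gateModL`.
-/
import Mathlib
import Fermat.Agent.DS.G6.BoundHedge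
import Fermat.Agent.DS.N6.FinalFG
import Fermat.Agent.DS.N2.GatesFinal
import Fermat.Agent.DS.N1.GateRankin
import Fermat.Agent.DS.N8.ChebWeighted

set_option autoImplicit false

open NumberField CongruenceSubgroup
open scoped MatrixGroups

namespace Fermat.Agent.DS.G6

local notation "Γℚ" => (AlgebraicClosure ℚ ≃ₐ[ℚ] AlgebraicClosure ℚ)

open Fermat.Agent.DS.N8

/-- the density shape of `N2.gateSparse` implies `UpperLogDensityLE` -/
theorem upperLogDensityLE_of_sparse_form {X : Set ℕ} {eta : ℝ} (heta : 0 < eta)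
    (h : ∃ C : ℝ, 1 ≤ C ∧ ∃ C' : ℝ, ∀ s : ℝ, 1 < s → ∀ T : Finset ℕ,
      (∀ p ∈ T, p.Prime ∧ p ∈ X) →
        ∑ p ∈ T, 1 / (p : ℝ) ^ s ≤ eta * Real.log (C * (1 / (s - 1) + 1)) + C') :
    UpperLogDensityLE X eta := by
  obtain ⟨C, hC1, C', H⟩ := h
  have hC : 0 < C := lt_of_lt_of_le one_pos hC1
  apply UpperLogDensityLE.of_O1
  refine ⟨eta * Real.log (2 * C) + C', 1, one_pos, fun s hs1 hs2 T hT => ?_⟩
  have h1 := H s hs1 T hT
  have h2 := Fermat.Agent.DS.N8.log_mul_inv_add_one_le hC hs1 (by linarith : s < 2)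
  have h3 : ∑ p ∈ T, 1 / (p : ℝ) ^ s = ∑ p ∈ T, (p : ℝ) ^ (-s) :=
    Finset.sum_congr rfl fun p _ => one_div_rpow_eq p s
  rw [h3] at h1
  have h4 : eta * Real.log (C * (1 / (s - 1) + 1))
      ≤ eta * (Real.log (1 / (s - 1)) + Real.log (2 * C)) :=
    mul_le_mul_of_nonneg_left h2 heta.le
  linarith

/-- **S48 from `ChebInputs` and `GateModL'`.** -/
theorem s48_of_chebInputs_gateModL (hin : ChebInputs) (N : ℕ) [NeZero N]
    (ε : DirichletCharacter ℂ N) (f : CuspForm (Gamma1 N) 1)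
    (hf₁ : ModularFormClass.qCoeff f 1 = 1)
    (hT : ∀ p : ℕ, p.Prime → ¬ p ∣ N → ∀ n : ℕ,
        ModularFormClass.qCoeff f (p * n) +
            ε (p : ZMod N) * (if p ∣ n then ModularFormClass.qCoeff f (n / p) else 0) =
          ModularFormClass.qCoeff f p * ModularFormClass.qCoeff f n)
    (hModL : ∀ (E : IntermediateField ℚ ℂ) [NumberField E] (a' e' : ℕ → 𝓞 E),
      (∀ p : ℕ, p.Prime → ¬ p ∣ N → ((a' p : E) : ℂ) = ModularFormClass.qCoeff f p) →
      (∀ p : ℕ, p.Prime → ¬ p ∣ N → ((e' p : E) : ℂ) = ε (p : ZMod N)) →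
      ∃ ℓ₀ : ℕ, ∀ ℓ : ℕ, ℓ.Prime → ℓ₀ ≤ ℓ → ¬ ℓ ∣ N → ∀ φ : 𝓞 E →+* ZMod ℓ,
        ∃ ρbar : Γℚ →* GL (Fin 2) (ZMod ℓ), GaloisFactorsThroughFiniteLevel ρbar ∧
          ∀ p : ℕ, p.Prime → ¬ p ∣ N → p ≠ ℓ →
            ∀ V : ValuationSubring (AlgebraicClosure ℚ), V.LiesOverPrime p →
              (∀ σ ∈ V.inertiaSubgroupIn ℚ, ρbar σ = 1) ∧
              ∀ τ : Γℚ, V.IsFrobeniusAt τ p →
                ((ρbar τ : GL (Fin 2) (ZMod ℓ)) : Matrix (Fin 2) (Fin 2) (ZMod ℓ)).trace =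
                  φ (a' p) ∧
                ((ρbar τ : GL (Fin 2) (ZMod ℓ)) : Matrix (Fin 2) (Fin 2) (ZMod ℓ)).det =
                  φ (e' p)) :
    ∃ ρ : Γℚ →* GL (Fin 2) ℂ, GaloisFactorsThroughFiniteLevel ρ ∧
      (Deformation.matrixRepresentation ρ).IsIrreducible ∧
      ∀ p : ℕ, p.Prime → ¬ p ∣ N →
        ∀ A : ValuationSubring (AlgebraicClosure ℚ), A.LiesOverPrime p →
          (∀ σ ∈ A.inertiaSubgroupIn ℚ, ρ σ = 1) ∧
          ∀ σ : Γℚ, A.IsFrobeniusAt σ p →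
            ((ρ σ : GL (Fin 2) ℂ) : Matrix (Fin 2) (Fin 2) ℂ).trace =
              ModularFormClass.qCoeff f p ∧
            ((ρ σ : GL (Fin 2) ℂ) : Matrix (Fin 2) (Fin 2) ℂ).det = ε (p : ZMod N) := by
  classical
  have hN : N ≠ 0 := NeZero.ne N
  obtain ⟨Y, X, hXform, hYmem⟩ :=
    Fermat.Agent.DS.N2.gateSparse ε f hf₁ hT (1 / 4) (by norm_num)
  have hX : UpperLogDensityLE X (1 / 4) := upperLogDensityLE_of_sparse_form (by norm_num) hXform
  refine Fermat.Agent.DS.N6.s48_of_gates_fg N ε f hf₁ hT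
    (Fermat.Agent.DS.N2.coeff_fg ε f hf₁ hT)
    (240 * (Y.card * (Finset.univ.image fun x : ZMod N => ε x).card))
    (boundedModL_of_gateModL hin N hN (fun p => ModularFormClass.qCoeff f p)
      (fun p => ε (p : ZMod N)) Y (Finset.univ.image fun x : ZMod N => ε x) X hX hYmem
      (fun p _ _ => Finset.mem_image.mpr ⟨(p : ZMod N), Finset.mem_univ _, rfl⟩) hModL)
    (Fermat.Agent.DS.N1.gateRankin2 N ε f hf₁ hT)
    (fun G _ _ π hsurj hfin w hw0 hwc =>
      weightedChebLower_of_chebInputs hin π hfin hsurj N.primeFactors w hw0 hwc)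

end Fermat.Agent.DS.G6
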