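/-
GATE-N / gap (g6) of S48-TOP (helper83): DESCENT of a two-dimensional representation from a field
`K` of characteristic `ℓ` to the prime field.

If `ρ : G →* GL₂(K)` has finite image and all traces and determinants in `𝔽_ℓ`, then there is
`ρ' : G →* GL₂(𝔽_ℓ)` with the same traces and determinants and with `ker ρ ⊆ ker ρ'`
(Deligne–Serre, Lemme 6.13, in dimension two).
-/
import Mathlib

set_option autoImplicit false

open Matrix

namespace Fermat.Agent.DS.G6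

section Vec

variable {Ω : Type*} [Field Ω]

/-- determinant of two column vectors of length two -/
def dt (u w : Fin 2 → Ω) : Ω := u 0 * w 1 - u 1 * w 0

theorem dt_self (u : Fin 2 → Ω) : dt u u = 0 := by unfold dt; ring

theorem dt_smul_right (c : Ω) (u w : Fin 2 → Ω) : dt u (c • w) = c * dt u w := by
  simp only [dt, Pi.smul_apply, smul_eq_mul]; ring

theorem dt_sub_right (u w w' : Fin 2 → Ω) : dt u (w - w') = dt u w - dt u w' := by
  simp only [dt, Pi.sub_apply]; ring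

theorem exists_smul_of_dt_eq_zero {u w : Fin 2 → Ω} (hu : u ≠ 0) (h : dt u w = 0) :
    ∃ c : Ω, w = c • u := by
  unfold dt at h
  by_cases h0 : u 0 = 0
  · have h1 : u 1 ≠ 0 := by
      intro h1
      apply hu
      funext i
      fin_cases i
      · exact h0
      · exact h1
    refine ⟨w 1 / u 1, ?_⟩
    funext i
    fin_cases i
    · simp only [Fin.zero_eta, Pi.smul_apply, smul_eq_mul, h0, mul_zero]
      rw [h0, zero_mul, zero_sub, neg_eq_zero] at h
      rcases mul_eq_zero.mp h with h | h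
      · exact absurd h h1
      · exact h
    · simp only [Fin.mk_one, Pi.smul_apply, smul_eq_mul]
      field_simp
  · refine ⟨w 0 / u 0, ?_⟩
    funext i
    fin_cases i
    · simp only [Fin.zero_eta, Pi.smul_apply, smul_eq_mul]
      field_simp
    · simp only [Fin.mk_one, Pi.smul_apply, smul_eq_mul]
      field_simp
      linear_combination h

theorem dt_mulVec (x : Matrix (Fin 2) (Fin 2) Ω) (u w : Fin 2 → Ω) :
    dt (x *ᵥ u) (x *ᵥ w) = x.det * dt u w := by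
  simp only [dt, Matrix.mulVec, dotProduct, Fin.sum_univ_two, Matrix.det_fin_two]
  ring

theorem eq_zero_of_mulVec_eq_zero {x : Matrix (Fin 2) (Fin 2) Ω} {u w : Fin 2 → Ω}
    (hu : x *ᵥ u = 0) (hw : x *ᵥ w = 0) (h : dt u w ≠ 0) : x = 0 := by
  have e00 := congrFun hu 0
  have e10 := congrFun hu 1
  have e01 := congrFun hw 0
  have e11 := congrFun hw 1
  simp only [Matrix.mulVec, dotProduct, Fin.sum_univ_two, Pi.zero_apply] at e00 e10 e01 e11
  unfold dt at h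
  ext i j
  fin_cases i <;> fin_cases j
  · show x 0 0 = 0
    have : x 0 0 * (u 0 * w 1 - u 1 * w 0) = 0 := by linear_combination w 1 * e00 - u 1 * e01
    exact (mul_eq_zero.mp this).resolve_right h
  · show x 0 1 = 0
    have : x 0 1 * (u 0 * w 1 - u 1 * w 0) = 0 := by linear_combination u 0 * e01 - w 0 * e00
    exact (mul_eq_zero.mp this).resolve_right h
  · show x 1 0 = 0
    have : x 1 0 * (u 0 * w 1 - u 1 * w 0) = 0 := by linear_combination w 1 * e10 - u 1 * e11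
    exact (mul_eq_zero.mp this).resolve_right h
  · show x 1 1 = 0
    have : x 1 1 * (u 0 * w 1 - u 1 * w 0) = 0 := by linear_combination u 0 * e11 - w 0 * e10
    exact (mul_eq_zero.mp this).resolve_right h

/-- a nonzero matrix moves some vector -/
theorem exists_mulVec_ne_zero {x : Matrix (Fin 2) (Fin 2) Ω} (hx : x ≠ 0) :
    ∃ v : Fin 2 → Ω, x *ᵥ v ≠ 0 := by
  by_contra h
  simp only [not_exists, not_not] at h
  apply hx
  ext i j
  have := congrFun (h (Pi.single j 1)) i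
  simpa using this

/-- Cayley–Hamilton for `2 × 2` matrices -/
theorem mul_self_eq (x : Matrix (Fin 2) (Fin 2) Ω) :
    x * x = x.trace • x - x.det • (1 : Matrix (Fin 2) (Fin 2) Ω) := by
  ext i j
  fin_cases i <;> fin_cases j <;>
    simp [Matrix.mul_apply, Fin.sum_univ_two, Matrix.trace_fin_two, Matrix.det_fin_two] <;> ring

end Vec

section Fl

variable {ℓ : ℕ} [Fact ℓ.Prime] {Ω : Type*} [Field Ω] [Algebra (ZMod ℓ) Ω]

/-- a field which is an algebra over `ZMod ℓ` has characteristic `ℓ` -/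
theorem charP_of_zmodAlgebra : CharP Ω ℓ :=
  charP_of_injective_algebraMap (algebraMap (ZMod ℓ) Ω).injective ℓ

/-- the `𝔽_ℓ`-points of `Ω` are the fixed points of the Frobenius -/
theorem mem_fieldRange_iff_pow {x : Ω} :
    x ∈ (algebraMap (ZMod ℓ) Ω).fieldRange ↔ x ^ ℓ = x := by
  have : CharP Ω ℓ := charP_of_zmodAlgebra
  rw [← Subfield.mem_bot_iff_pow_eq_self Ω ℓ]
  constructor
  · rintro ⟨y, rfl⟩
    rw [Subfield.mem_bot_iff_pow_eq_self Ω ℓ, ← map_pow, ZMod.pow_card]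
  · intro hx
    rw [mem_bot_iff_intCast ℓ Ω] at hx
    obtain ⟨n, rfl⟩ := hx
    exact ⟨(n : ZMod ℓ), by simp⟩

end Fl

section Chars

variable {ℓ : ℕ} [Fact ℓ.Prime] {Ω : Type*} [Field Ω] [Algebra (ZMod ℓ) Ω] {G : Type*} [Group G]

/-- the diagonal matrix `diag(x, y)` -/
def dg (x y : Ω) : Matrix (Fin 2) (Fin 2) Ω := !![x, 0; 0, y]

theorem dg_mul (x y x' y' : Ω) : dg x y * dg x' y' = dg (x * x') (y * y') := by
  simp [dg]

theorem dg_one : dg (1 : Ω) 1 = 1 := by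
  simp [dg, Matrix.one_fin_two]

/-- the conjugate `Qi * diag(χ₁, χ₂) * Q` of the diagonal representation -/
def diagConj (Q Qi : Matrix (Fin 2) (Fin 2) Ω) (h : Q * Qi = 1) (χ1 χ2 : G →* Ωˣ) :
    G →* Matrix (Fin 2) (Fin 2) Ω where
  toFun g := Qi * dg (χ1 g : Ω) (χ2 g : Ω) * Q
  map_one' := by
    rw [map_one, map_one, Units.val_one, dg_one, mul_one]
    exact mul_eq_one_comm.mp h
  map_mul' g g' := by
    rw [map_mul, map_mul, Units.val_mul, Units.val_mul, ← dg_mul]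
    calc Qi * (dg ↑(χ1 g) ↑(χ2 g) * dg ↑(χ1 g') ↑(χ2 g')) * Q
        = Qi * dg ↑(χ1 g) ↑(χ2 g) * 1 * (dg ↑(χ1 g') ↑(χ2 g') * Q) := by
          rw [mul_one]; simp only [mul_assoc]
      _ = _ := by rw [← h]; simp only [mul_assoc]

theorem diagConj_apply (Q Qi : Matrix (Fin 2) (Fin 2) Ω) (h : Q * Qi = 1) (χ1 χ2 : G →* Ωˣ)
    (g : G) : diagConj Q Qi h χ1 χ2 g = Qi * dg (χ1 g : Ω) (χ2 g : Ω) * Q := rfl

theorem diagConj_trace (Q Qi : Matrix (Fin 2) (Fin 2) Ω) (h : Q * Qi = 1) (χ1 χ2 : G →* Ωˣ)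
    (g : G) : (diagConj Q Qi h χ1 χ2 g).trace = (χ1 g : Ω) + χ2 g := by
  rw [diagConj_apply, Matrix.trace_mul_cycle, h, one_mul]
  simp [dg, Matrix.trace_fin_two_of]

theorem diagConj_det (Q Qi : Matrix (Fin 2) (Fin 2) Ω) (h : Q * Qi = 1) (χ1 χ2 : G →* Ωˣ)
    (g : G) : (diagConj Q Qi h χ1 χ2 g).det = (χ1 g : Ω) * χ2 g := by
  have hd : Q.det * Qi.det = 1 := by rw [← Matrix.det_mul, h, Matrix.det_one]
  rw [diagConj_apply, Matrix.det_mul, Matrix.det_mul]
  have : (dg (χ1 g : Ω) (χ2 g : Ω)).det = (χ1 g : Ω) * χ2 g := by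
    simp [dg, Matrix.det_fin_two_of]
  rw [this]
  linear_combination ((χ1 g : Ω) * χ2 g) * hd

theorem diagConj_eq_one (Q Qi : Matrix (Fin 2) (Fin 2) Ω) (h : Q * Qi = 1) (χ1 χ2 : G →* Ωˣ)
    (g : G) (h1 : χ1 g = 1) (h2 : χ2 g = 1) : diagConj Q Qi h χ1 χ2 g = 1 := by
  rw [diagConj_apply, h1, h2, Units.val_one, dg_one, mul_one]
  exact mul_eq_one_comm.mp h

theorem entries_caseB (ω ω' x x' : Ω) (h1 : ω ^ ℓ = ω') (h2 : ω' ^ ℓ = ω) (h3 : x ^ ℓ = x')
    (h4 : x' ^ ℓ = x) (hne : ω' - ω ≠ 0) (i j : Fin 2) :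
    (!![ω' / (ω' - ω), -ω / (ω' - ω); -1 / (ω' - ω), 1 / (ω' - ω)] * dg x x' *
      !![1, ω; 1, ω']) i j ∈ (algebraMap (ZMod ℓ) Ω).fieldRange := by
  have : CharP Ω ℓ := charP_of_zmodAlgebra
  have hne' : ω - ω' ≠ 0 := by
    intro h; apply hne; linear_combination -h
  rw [mem_fieldRange_iff_pow, ← frobenius_def]
  rw [← frobenius_def] at h1 h2 h3 h4
  fin_cases i <;> fin_cases j <;>
    simp only [dg, Matrix.mul_fin_two, Fin.zero_eta, Fin.mk_one, Matrix.of_apply, Matrix.cons_val',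
      Matrix.cons_val_zero, Matrix.cons_val_one, Matrix.cons_val_fin_one, map_add, map_mul,
      map_div₀, map_sub, map_neg, map_one, map_zero, h1, h2, h3, h4] <;>
    field_simp <;> ring

theorem caseB_inv (ω ω' : Ω) (hne : ω' - ω ≠ 0) :
    !![1, ω; 1, ω'] * !![ω' / (ω' - ω), -ω / (ω' - ω); -1 / (ω' - ω), 1 / (ω' - ω)] = 1 := by
  rw [Matrix.mul_fin_two, Matrix.one_fin_two]
  congr 1
  ext i j
  fin_cases i <;> fin_cases j <;> simp <;> field_simp <;> ring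

theorem pow_eq_or (x y : Ω) (hs : x + y ∈ (algebraMap (ZMod ℓ) Ω).fieldRange)
    (hp : x * y ∈ (algebraMap (ZMod ℓ) Ω).fieldRange) : x ^ ℓ = x ∨ x ^ ℓ = y := by
  have : CharP Ω ℓ := charP_of_zmodAlgebra
  rw [mem_fieldRange_iff_pow] at hs hp
  rw [add_pow_char] at hs
  rw [mul_pow] at hp
  have key : (x ^ ℓ - x) * (x ^ ℓ - y) = 0 := by
    linear_combination (x ^ ℓ) * hs - hp
  rcases mul_eq_zero.mp key with h | h
  · exact Or.inl (sub_eq_zero.mp h)
  · exact Or.inr (sub_eq_zero.mp h)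

theorem char_dichotomy (χ1 χ2 : G →* Ωˣ)
    (hs : ∀ g, ((χ1 g : Ω) + (χ2 g : Ω)) ∈ (algebraMap (ZMod ℓ) Ω).fieldRange)
    (hp : ∀ g, ((χ1 g : Ω) * (χ2 g : Ω)) ∈ (algebraMap (ZMod ℓ) Ω).fieldRange) :
    (∀ g, (χ1 g : Ω) ^ ℓ = χ1 g) ∨ (∀ g, (χ1 g : Ω) ^ ℓ = χ2 g) := by
  by_contra hcon
  rw [not_or] at hcon
  obtain ⟨h1, h2⟩ := hcon
  rw [not_forall] at h1 h2
  obtain ⟨g1, hg1⟩ := h1
  obtain ⟨g2, hg2⟩ := h2
  have e1 : (χ1 g1 : Ω) ^ ℓ = χ2 g1 := (pow_eq_or _ _ (hs g1) (hp g1)).resolve_left hg1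
  have e2 : (χ1 g2 : Ω) ^ ℓ = χ1 g2 := (pow_eq_or _ _ (hs g2) (hp g2)).resolve_right hg2
  have e12 : (χ1 (g1 * g2) : Ω) ^ ℓ = (χ2 g1 : Ω) * (χ1 g2 : Ω) := by
    rw [map_mul, Units.val_mul, mul_pow, e1, e2]
  rcases pow_eq_or _ _ (hs (g1 * g2)) (hp (g1 * g2)) with h | h
  · rw [e12, map_mul, Units.val_mul] at h
    have : (χ2 g1 : Ω) = χ1 g1 := mul_right_cancel₀ (χ1 g2).ne_zero h
    exact hg1 (by rw [e1, this])
  · rw [e12, map_mul, Units.val_mul] at h
    have : (χ1 g2 : Ω) = χ2 g2 := mul_left_cancel₀ (χ2 g1).ne_zero h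
    exact hg2 (by rw [e2, this])

end Chars

section CaseII

variable {Ω : Type*} [Field Ω] {G : Type*} [Group G]

/-- the representation has a common eigenvector -/
def HasCommonEig (ρ : G →* GL (Fin 2) Ω) : Prop :=
  ∃ v : Fin 2 → Ω, v ≠ 0 ∧ ∀ g, ∃ c : Ω, (ρ g).val *ᵥ v = c • v

theorem exists_chars_of_commonEig (ρ : G →* GL (Fin 2) Ω) (h : HasCommonEig ρ) :
    ∃ χ1 χ2 : G →* Ωˣ, (∀ g, (χ1 g : Ω) + χ2 g = (ρ g).val.trace) ∧
      (∀ g, (χ1 g : Ω) * χ2 g = (ρ g).val.det) ∧ (∀ g, ρ g = 1 → χ1 g = 1 ∧ χ2 g = 1) := by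
  obtain ⟨v, hv, hc⟩ := h
  choose c hc using hc
  have hinj : Function.Injective fun a : Ω => a • v := smul_left_injective Ω hv
  have c_one : c 1 = 1 := by
    apply hinj
    show c 1 • v = (1 : Ω) • v
    rw [← hc 1, map_one, Units.val_one, Matrix.one_mulVec, one_smul]
  have c_mul : ∀ g h, c (g * h) = c g * c h := by
    intro g h
    apply hinj
    show c (g * h) • v = (c g * c h) • v
    rw [← hc (g * h), map_mul, Units.val_mul, ← Matrix.mulVec_mulVec, hc h, Matrix.mulVec_smul,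
      hc g, smul_smul, mul_comm]
  let χ0 : G →* Ω := { toFun := c, map_one' := c_one, map_mul' := c_mul }
  let χ1 : G →* Ωˣ := χ0.toHomUnits
  have hχ1 : ∀ g, (χ1 g : Ω) = c g := fun g => rfl
  let χ2 : G →* Ωˣ := (Matrix.GeneralLinearGroup.det.comp ρ) / χ1
  have hχ2 : ∀ g, (χ2 g : Ω) = (ρ g).val.det / c g := by
    intro g
    show ((Matrix.GeneralLinearGroup.det (ρ g) / χ1 g : Ωˣ) : Ω) = _
    rw [Units.val_div_eq_div_val, hχ1]
    rfl
  have hcne : ∀ g, c g ≠ 0 := fun g => by rw [← hχ1]; exact (χ1 g).ne_zero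
  have hquad : ∀ g, c g * c g - (ρ g).val.trace * c g + (ρ g).val.det = 0 := by
    intro g
    have h0 : ((ρ g).val - c g • (1 : Matrix (Fin 2) (Fin 2) Ω)) *ᵥ v = 0 := by
      rw [Matrix.sub_mulVec, hc g, Matrix.smul_mulVec, Matrix.one_mulVec, sub_self]
    have hdet : ((ρ g).val - c g • (1 : Matrix (Fin 2) (Fin 2) Ω)).det = 0 :=
      Matrix.exists_mulVec_eq_zero_iff.mp ⟨v, hv, h0⟩
    rw [Matrix.det_fin_two] at hdet
    simp only [Matrix.sub_apply, Matrix.smul_apply, Matrix.one_apply_eq, smul_eq_mul, mul_one,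
      Matrix.one_apply_ne (show (0 : Fin 2) ≠ 1 by decide),
      Matrix.one_apply_ne (show (1 : Fin 2) ≠ 0 by decide), mul_zero, sub_zero] at hdet
    rw [Matrix.trace_fin_two, Matrix.det_fin_two]
    linear_combination hdet
  refine ⟨χ1, χ2, ?_, ?_, ?_⟩
  · intro g
    rw [hχ1, hχ2]
    have := hcne g
    field_simp
    linear_combination hquad g
  · intro g
    rw [hχ1, hχ2]
    have := hcne g
    field_simp
  · intro g hg
    have h1 : c g = 1 := by
      apply hinj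
      show c g • v = (1 : Ω) • v
      rw [← hc g, hg, Units.val_one, Matrix.one_mulVec, one_smul]
    constructor
    · apply Units.ext
      rw [hχ1, h1, Units.val_one]
    · apply Units.ext
      rw [hχ2, h1, hg, Units.val_one, Matrix.det_one, div_one, Units.val_one]

end CaseII

section SpanAlg

variable {ℓ : ℕ} [Fact ℓ.Prime] {Ω : Type*} [Field Ω] [Algebra (ZMod ℓ) Ω] {G : Type*} [Group G]

/-- the matrix-valued hom underlying a representation -/
def matHom (ρ : G →* GL (Fin 2) Ω) : G →* Matrix (Fin 2) (Fin 2) Ω :=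
  (Units.coeHom _).comp ρ

theorem matHom_apply (ρ : G →* GL (Fin 2) Ω) (g : G) : matHom ρ g = (ρ g).val := rfl

variable (ℓ) in
/-- the `𝔽_ℓ`-algebra spanned by the image of `ρ` -/
def spanAlg (ρ : G →* GL (Fin 2) Ω) : Subalgebra (ZMod ℓ) (Matrix (Fin 2) (Fin 2) Ω) :=
  Algebra.adjoin (ZMod ℓ) ((MonoidHom.mrange (matHom ρ) : Submonoid _) : Set _)

theorem spanAlg_toSubmodule (ρ : G →* GL (Fin 2) Ω) :
    Subalgebra.toSubmodule (spanAlg ℓ ρ) = Submodule.span (ZMod ℓ) (Set.range (matHom ρ)) := by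
  rw [spanAlg, Algebra.adjoin_eq_span, Submonoid.closure_eq, MonoidHom.coe_mrange]

theorem matHom_mem_spanAlg (ρ : G →* GL (Fin 2) Ω) (g : G) : matHom ρ g ∈ spanAlg ℓ ρ :=
  Algebra.subset_adjoin ⟨g, rfl⟩

theorem trace_mem_of_mem_spanAlg (ρ : G →* GL (Fin 2) Ω)
    (htr : ∀ g, (ρ g).val.trace ∈ (algebraMap (ZMod ℓ) Ω).fieldRange)
    {a : Matrix (Fin 2) (Fin 2) Ω} (ha : a ∈ spanAlg ℓ ρ) :
    a.trace ∈ (algebraMap (ZMod ℓ) Ω).fieldRange := by
  have ha' : a ∈ Submodule.span (ZMod ℓ) (Set.range (matHom ρ)) := by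
    rw [← spanAlg_toSubmodule]; exact ha
  clear ha
  induction ha' using Submodule.span_induction with
  | mem x hx =>
    obtain ⟨g, rfl⟩ := hx
    exact htr g
  | zero => rw [Matrix.trace_zero]; exact zero_mem _
  | add x y _ _ hx hy => rw [Matrix.trace_add]; exact add_mem hx hy
  | smul r x _ hx =>
    rw [Matrix.trace_smul, Algebra.smul_def]
    exact mul_mem ⟨r, rfl⟩ hx

theorem finite_spanAlg (ρ : G →* GL (Fin 2) Ω) (hfin : (Set.range ρ).Finite) :
    Finite (spanAlg ℓ ρ) := by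
  have hfin' : (Set.range (matHom ρ)).Finite := by
    have : Set.range (matHom ρ) = (fun u : GL (Fin 2) Ω => u.val) '' Set.range ρ := by
      ext x
      simp [matHom]
    rw [this]
    exact hfin.image _
  have hfg : (Subalgebra.toSubmodule (spanAlg ℓ ρ)).FG := by
    rw [spanAlg_toSubmodule]
    exact Submodule.fg_span hfin'
  have : Module.Finite (ZMod ℓ) (Subalgebra.toSubmodule (spanAlg ℓ ρ)) :=
    Module.Finite.iff_fg.mpr hfg
  have h2 : Finite (Subalgebra.toSubmodule (spanAlg ℓ ρ)) := Module.finite_of_finite (ZMod ℓ)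
  exact h2

end SpanAlg

section ColMat

variable {Ω : Type*} [Field Ω]

/-- the matrix with columns `u`, `w` -/
def colMat (u w : Fin 2 → Ω) : Matrix (Fin 2) (Fin 2) Ω := !![u 0, w 0; u 1, w 1]

theorem det_colMat (u w : Fin 2 → Ω) : (colMat u w).det = dt u w := by
  simp [colMat, dt, Matrix.det_fin_two_of]; ring

theorem mul_colMat (M : Matrix (Fin 2) (Fin 2) Ω) (u w : Fin 2 → Ω) :
    M * colMat u w = colMat (M *ᵥ u) (M *ᵥ w) := by
  ext i j
  fin_cases i <;> fin_cases j <;>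
    simp [colMat, Matrix.mul_apply, Matrix.mulVec, dotProduct, Fin.sum_univ_two]

/-- `E₁₁` -/
def E11 : Matrix (Fin 2) (Fin 2) Ω := !![1, 0; 0, 0]

/-- `E₂₁` -/
def E21 : Matrix (Fin 2) (Fin 2) Ω := !![0, 0; 1, 0]

theorem colMat_mul_E11 (u w : Fin 2 → Ω) : colMat u w * E11 = colMat u 0 := by
  simp [colMat, E11]

theorem colMat_mul_E21 (u w : Fin 2 → Ω) : colMat u w * E21 = colMat w 0 := by
  simp [colMat, E21]

theorem colMat_mulVec (u w : Fin 2 → Ω) (a b : Ω) : colMat u w *ᵥ ![a, b] = a • u + b • w := by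
  funext i
  fin_cases i <;> simp [colMat, Matrix.mulVec, dotProduct, Fin.sum_univ_two] <;> ring

end ColMat

section CaseI

variable {ℓ : ℕ} [Fact ℓ.Prime] {Ω : Type*} [Field Ω] [Algebra (ZMod ℓ) Ω] {G : Type*} [Group G]

theorem exists_eigvec [IsAlgClosed Ω] (a : Matrix (Fin 2) (Fin 2) Ω) :
    ∃ (μ : Ω) (v : Fin 2 → Ω), v ≠ 0 ∧ a *ᵥ v = μ • v := by
  obtain ⟨μ, hμ⟩ := Module.End.exists_eigenvalue (Matrix.toLin' a)
  obtain ⟨v, hv⟩ := hμ.exists_hasEigenvector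
  refine ⟨μ, v, hv.2, ?_⟩
  have := hv.apply_eq_smul
  simpa using this

/-- a commuting family has a common eigenvector -/
theorem hasCommonEig_of_commute [IsAlgClosed Ω] (ρ : G →* GL (Fin 2) Ω)
    (hcomm : ∀ g h, (ρ g).val * (ρ h).val = (ρ h).val * (ρ g).val) : HasCommonEig ρ := by
  by_cases hsc : ∀ g, ∃ c : Ω, (ρ g).val = c • (1 : Matrix (Fin 2) (Fin 2) Ω)
  · refine ⟨![1, 0], ?_, fun g => ?_⟩
    · intro h
      have := congrFun h 0
      simp at this
    · obtain ⟨c, hc⟩ := hsc g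
      exact ⟨c, by rw [hc, Matrix.smul_mulVec, Matrix.one_mulVec]⟩
  · rw [not_forall] at hsc
    obtain ⟨g0, hg0⟩ := hsc
    rw [not_exists] at hg0
    obtain ⟨μ, v, hv, hμ⟩ := exists_eigvec (ρ g0).val
    refine ⟨v, hv, fun g => ?_⟩
    have h0 : ((ρ g0).val - μ • (1 : Matrix (Fin 2) (Fin 2) Ω)) *ᵥ v = 0 := by
      rw [Matrix.sub_mulVec, hμ, Matrix.smul_mulVec, Matrix.one_mulVec, sub_self]
    have h1 : ((ρ g0).val - μ • (1 : Matrix (Fin 2) (Fin 2) Ω)) *ᵥ ((ρ g).val *ᵥ v) = 0 := by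
      rw [Matrix.sub_mulVec, Matrix.mulVec_mulVec, hcomm g0 g, ← Matrix.mulVec_mulVec, hμ,
        Matrix.mulVec_smul, Matrix.smul_mulVec, Matrix.one_mulVec, sub_self]
    have hd : dt v ((ρ g).val *ᵥ v) = 0 := by
      by_contra hne
      apply hg0 μ
      have := eq_zero_of_mulVec_eq_zero h0 h1 hne
      exact sub_eq_zero.mp this
    obtain ⟨c, hc⟩ := exists_smul_of_dt_eq_zero hv hd
    exact ⟨c, hc⟩

/-- a nonzero singular `x` with `tr (x ρ(g)) = 0` for all `g` produces a common eigenvector -/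
theorem hasCommonEig_of_trace_zero (ρ : G →* GL (Fin 2) Ω) (x : Matrix (Fin 2) (Fin 2) Ω)
    (hx : x ≠ 0) (hdet : x.det = 0) (h : ∀ g, (x * (ρ g).val).trace = 0) : HasCommonEig ρ := by
  have htr : x.trace = 0 := by
    have := h 1
    rwa [map_one, Units.val_one, mul_one] at this
  have hxx : x * x = 0 := by
    rw [mul_self_eq, htr, hdet, zero_smul, zero_smul, sub_zero]
  have hxgx : ∀ g, x * (ρ g).val * x = 0 := by
    intro g
    have hy : (x * (ρ g).val) * (x * (ρ g).val) = 0 := by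
      rw [mul_self_eq, h g, Matrix.det_mul, hdet, zero_mul, zero_smul, zero_smul, sub_zero]
    have h2 : x * (ρ g).val * x = (x * (ρ g).val) * (x * (ρ g).val) * ((ρ g)⁻¹).val := by
      have : (ρ g).val * ((ρ g)⁻¹).val = 1 := by
        rw [← Units.val_mul, mul_inv_cancel, Units.val_one]
      calc x * (ρ g).val * x = x * (ρ g).val * x * ((ρ g).val * ((ρ g)⁻¹).val) := by
            rw [this, mul_one]
        _ = _ := by simp only [mul_assoc]
    rw [h2, hy, zero_mul]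
  obtain ⟨v0, hv0⟩ := exists_mulVec_ne_zero hx
  refine ⟨x *ᵥ v0, hv0, fun g => ?_⟩
  have h0 : x *ᵥ (x *ᵥ v0) = 0 := by
    rw [Matrix.mulVec_mulVec, hxx, Matrix.zero_mulVec]
  have h1 : x *ᵥ ((ρ g).val *ᵥ (x *ᵥ v0)) = 0 := by
    rw [Matrix.mulVec_mulVec, Matrix.mulVec_mulVec, hxgx g, Matrix.zero_mulVec]
  have hd : dt (x *ᵥ v0) ((ρ g).val *ᵥ (x *ᵥ v0)) = 0 := by
    by_contra hne
    exact hx (eq_zero_of_mulVec_eq_zero h0 h1 hne)
  obtain ⟨c, hc⟩ := exists_smul_of_dt_eq_zero hv0 hd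
  exact ⟨c, hc⟩

/-- **Wedderburn step**: without a common eigenvector, the finite ring `spanAlg ρ` contains a
nonzero singular matrix. -/
theorem exists_singular [IsAlgClosed Ω] (ρ : G →* GL (Fin 2) Ω) (hfin : (Set.range ρ).Finite)
    (hno : ¬ HasCommonEig ρ) : ∃ x ∈ spanAlg ℓ ρ, x ≠ 0 ∧ x.det = 0 := by
  by_contra hcon
  have hcon' : ∀ x ∈ spanAlg ℓ ρ, x ≠ 0 → x.det ≠ 0 := by
    intro x hx hx0 hd
    exact hcon ⟨x, hx, hx0, hd⟩
  have : Finite (spanAlg ℓ ρ) := finite_spanAlg ρ hfin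
  have : NoZeroDivisors (spanAlg ℓ ρ) := by
    refine ⟨fun {a b} hab => ?_⟩
    by_cases ha : a = 0
    · exact Or.inl ha
    · right
      have ha' : (a : Matrix (Fin 2) (Fin 2) Ω) ≠ 0 := fun h => ha (Subtype.ext h)
      have hdet := hcon' a.1 a.2 ha'
      have hu : IsUnit (a : Matrix (Fin 2) (Fin 2) Ω) :=
        (Matrix.isUnit_iff_isUnit_det _).mpr (isUnit_iff_ne_zero.mpr hdet)
      have hab' : (a : Matrix (Fin 2) (Fin 2) Ω) * (b : Matrix (Fin 2) (Fin 2) Ω) = 0 := by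
        have := congrArg Subtype.val hab
        simpa using this
      exact Subtype.ext (hu.mul_right_eq_zero.mp hab')
  have : IsDomain (spanAlg ℓ ρ) := NoZeroDivisors.to_isDomain _
  have hf := Finite.isDomain_to_isField (spanAlg ℓ ρ)
  apply hno
  apply hasCommonEig_of_commute
  intro g h
  have := hf.mul_comm ⟨matHom ρ g, matHom_mem_spanAlg ρ g⟩ ⟨matHom ρ h, matHom_mem_spanAlg ρ h⟩
  exact congrArg Subtype.val this

/-- from a nonzero singular element to a rank-one idempotent -/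
theorem exists_idem (ρ : G →* GL (Fin 2) Ω)
    (htr : ∀ g, (ρ g).val.trace ∈ (algebraMap (ZMod ℓ) Ω).fieldRange)
    (hno : ¬ HasCommonEig ρ) {x : Matrix (Fin 2) (Fin 2) Ω} (hxA : x ∈ spanAlg ℓ ρ) (hx : x ≠ 0)
    (hdet : x.det = 0) : ∃ e ∈ spanAlg ℓ ρ, e.det = 0 ∧ e.trace = 1 := by
  by_cases h : ∀ g, (x * (ρ g).val).trace = 0
  · exact absurd (hasCommonEig_of_trace_zero ρ x hx hdet h) hno
  · rw [not_forall] at h
    obtain ⟨g, hg⟩ := h
    have hyA : x * (ρ g).val ∈ spanAlg ℓ ρ := mul_mem hxA (matHom_mem_spanAlg ρ g)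
    obtain ⟨c', hc'⟩ := trace_mem_of_mem_spanAlg ρ htr hyA
    have hc'0 : c' ≠ 0 := by
      rintro rfl
      rw [map_zero] at hc'
      exact hg hc'.symm
    refine ⟨c'⁻¹ • (x * (ρ g).val), Subalgebra.smul_mem _ hyA _, ?_, ?_⟩
    · rw [← algebraMap_smul Ω c'⁻¹ (x * (ρ g).val), Matrix.det_smul, Matrix.det_mul, hdet,
        zero_mul, mul_zero]
    · rw [Matrix.trace_smul, Algebra.smul_def, ← hc', ← map_mul, inv_mul_cancel₀ hc'0, map_one]

end CaseI

section Basis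

variable {ℓ : ℕ} [Fact ℓ.Prime] {Ω : Type*} [Field Ω] [Algebra (ZMod ℓ) Ω] {G : Type*} [Group G]

/-- a basis adapted to a rank-one idempotent `e` of `spanAlg ρ`, together with `E₂₁` -/
theorem exists_basis (ρ : G →* GL (Fin 2) Ω) (hno : ¬ HasCommonEig ρ)
    {e : Matrix (Fin 2) (Fin 2) Ω} (heA : e ∈ spanAlg ℓ ρ) (hdet : e.det = 0)
    (htre : e.trace = 1) :
    ∃ (u w : Fin 2 → Ω), dt u w ≠ 0 ∧ w ≠ 0 ∧ e * colMat u w = colMat u w * E11 ∧
      ∃ a1 ∈ spanAlg ℓ ρ, a1 * colMat u w = colMat u w * E21 := by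
  have hee : e * e = e := by
    rw [mul_self_eq, htre, hdet, one_smul, zero_smul, sub_zero]
  have he0 : e ≠ 0 := by
    rintro rfl
    rw [Matrix.trace_zero] at htre
    exact zero_ne_one htre
  obtain ⟨v0, hv0⟩ := exists_mulVec_ne_zero he0
  obtain ⟨u, hu⟩ : ∃ u, u = e *ᵥ v0 := ⟨_, rfl⟩
  rw [← hu] at hv0
  have heu : e *ᵥ u = u := by rw [hu, Matrix.mulVec_mulVec, hee]
  obtain ⟨g1, hg1⟩ : ∃ g1, dt u ((ρ g1).val *ᵥ u) ≠ 0 := by
    by_contra hcon
    simp only [not_exists, not_not] at hcon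
    exact hno ⟨u, hv0, fun g => exists_smul_of_dt_eq_zero hv0 (hcon g)⟩
  obtain ⟨w, hw⟩ : ∃ w, w = (ρ g1).val *ᵥ u := ⟨_, rfl⟩
  rw [← hw] at hg1
  obtain ⟨c, hc⟩ : ∃ c : Ω, e *ᵥ w = c • u := by
    apply exists_smul_of_dt_eq_zero hv0
    rw [hu, dt_mulVec, hdet, zero_mul]
  have hdt : dt u (w - e *ᵥ w) ≠ 0 := by
    rw [dt_sub_right, hc, dt_smul_right, dt_self, mul_zero, sub_zero]
    exact hg1
  have heu2 : e *ᵥ (w - e *ᵥ w) = 0 := by
    rw [Matrix.mulVec_sub, Matrix.mulVec_mulVec, hee, sub_self]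
  have hu2 : w - e *ᵥ w ≠ 0 := by
    intro h
    rw [h] at hdt
    apply hdt
    simp [dt]
  refine ⟨u, w - e *ᵥ w, hdt, hu2, ?_, (1 - e) * (ρ g1).val * e, ?_, ?_⟩
  · rw [mul_colMat, heu, heu2, colMat_mul_E11]
  · exact mul_mem (mul_mem (sub_mem (one_mem _) heA) (matHom_mem_spanAlg ρ g1)) heA
  · rw [mul_colMat, colMat_mul_E21]
    congr 1
    · rw [← Matrix.mulVec_mulVec, ← Matrix.mulVec_mulVec, heu, ← hw, Matrix.sub_mulVec,
        Matrix.one_mulVec]
    · rw [← Matrix.mulVec_mulVec, ← Matrix.mulVec_mulVec, heu2, Matrix.mulVec_zero,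
        Matrix.mulVec_zero]

end Basis

section Entries

variable {ℓ : ℕ} [Fact ℓ.Prime] {Ω : Type*} [Field Ω] [Algebra (ZMod ℓ) Ω]

/-- conjugation `z ↦ Pi * z * P` as an algebra hom -/
def conjHom (P Pi : Matrix (Fin 2) (Fin 2) Ω) (h : P * Pi = 1) :
    Matrix (Fin 2) (Fin 2) Ω →ₐ[ZMod ℓ] Matrix (Fin 2) (Fin 2) Ω where
  toFun z := Pi * z * P
  map_one' := by rw [mul_one]; exact mul_eq_one_comm.mp h
  map_mul' x y := by
    calc Pi * (x * y) * P = Pi * x * 1 * (y * P) := by rw [mul_one]; simp only [mul_assoc]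
      _ = _ := by rw [← h]; simp only [mul_assoc]
  map_zero' := by rw [mul_zero, zero_mul]
  map_add' x y := by rw [mul_add, add_mul]
  commutes' r := by
    rw [← Algebra.commutes, mul_assoc, mul_eq_one_comm.mp h, mul_one]

theorem conjHom_apply (P Pi : Matrix (Fin 2) (Fin 2) Ω) (h : P * Pi = 1)
    (z : Matrix (Fin 2) (Fin 2) Ω) : conjHom (ℓ := ℓ) P Pi h z = Pi * z * P := rfl

theorem trace_conjHom (P Pi : Matrix (Fin 2) (Fin 2) Ω) (h : P * Pi = 1)
    (z : Matrix (Fin 2) (Fin 2) Ω) : (conjHom (ℓ := ℓ) P Pi h z).trace = z.trace := by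
  rw [conjHom_apply, Matrix.trace_mul_cycle, h, one_mul]

/-- a subalgebra with traces in `𝔽_ℓ` containing `E₁₁`, `E₂₁` and an element with nonzero
`(0,1)`-entry has all its entries in `𝔽_ℓ` -/
theorem entries_mem (B : Subalgebra (ZMod ℓ) (Matrix (Fin 2) (Fin 2) Ω))
    (hB : ∀ b ∈ B, b.trace ∈ (algebraMap (ZMod ℓ) Ω).fieldRange)
    (h11 : (E11 : Matrix (Fin 2) (Fin 2) Ω) ∈ B) (h21 : (E21 : Matrix (Fin 2) (Fin 2) Ω) ∈ B)
    {y0 : Matrix (Fin 2) (Fin 2) Ω} (hy0B : y0 ∈ B) (hy0 : y0 0 1 ≠ 0)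
    {y : Matrix (Fin 2) (Fin 2) Ω} (hy : y ∈ B) (i j : Fin 2) :
    y i j ∈ (algebraMap (ZMod ℓ) Ω).fieldRange := by
  have e00 : ∀ z ∈ B, z 0 0 ∈ (algebraMap (ZMod ℓ) Ω).fieldRange := by
    intro z hz
    have : z 0 0 = (E11 * z).trace := by
      rw [Matrix.trace_fin_two, Matrix.mul_apply, Matrix.mul_apply, Fin.sum_univ_two,
        Fin.sum_univ_two]
      simp [E11]
    rw [this]
    exact hB _ (mul_mem h11 hz)
  have e01 : ∀ z ∈ B, z 0 1 ∈ (algebraMap (ZMod ℓ) Ω).fieldRange := by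
    intro z hz
    have : z 0 1 = (z * E21).trace := by
      rw [Matrix.trace_fin_two, Matrix.mul_apply, Matrix.mul_apply, Fin.sum_univ_two,
        Fin.sum_univ_two]
      simp [E21]
    rw [this]
    exact hB _ (mul_mem hz h21)
  have e11 : ∀ z ∈ B, z 1 1 ∈ (algebraMap (ZMod ℓ) Ω).fieldRange := by
    intro z hz
    have : z 1 1 = z.trace - z 0 0 := by
      rw [Matrix.trace_fin_two]; ring
    rw [this]
    exact sub_mem (hB _ hz) (e00 z hz)
  have e10 : ∀ z ∈ B, z 1 0 ∈ (algebraMap (ZMod ℓ) Ω).fieldRange := by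
    intro z hz
    have : z 1 0 * y0 0 1 = (z * (E11 * y0 * (1 - E11))).trace := by
      rw [Matrix.trace_fin_two, Matrix.mul_apply, Matrix.mul_apply, Fin.sum_univ_two,
        Fin.sum_univ_two]
      simp only [Matrix.mul_apply, Fin.sum_univ_two, Matrix.sub_apply]
      simp [E11]
    have hmem : z 1 0 * y0 0 1 ∈ (algebraMap (ZMod ℓ) Ω).fieldRange := by
      rw [this]
      exact hB _ (mul_mem hz (mul_mem (mul_mem h11 hy0B) (sub_mem (one_mem _) h11)))
    have : z 1 0 = z 1 0 * y0 0 1 / y0 0 1 := by field_simp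
    rw [this]
    exact div_mem hmem (e01 y0 hy0B)
  fin_cases i <;> fin_cases j
  · exact e00 y hy
  · exact e01 y hy
  · exact e10 y hy
  · exact e11 y hy

end Entries

section Assembly

variable {ℓ : ℕ} [Fact ℓ.Prime] {Ω : Type*} [Field Ω] [Algebra (ZMod ℓ) Ω] {G : Type*} [Group G]

/-- **Case (I)**: without a common eigenvector, some conjugate of `ρ` has all entries in `𝔽_ℓ`. -/
theorem exists_conj_of_not_commonEig [IsAlgClosed Ω] (ρ : G →* GL (Fin 2) Ω)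
    (hfin : (Set.range ρ).Finite)
    (htr : ∀ g, (ρ g).val.trace ∈ (algebraMap (ZMod ℓ) Ω).fieldRange)
    (hno : ¬ HasCommonEig ρ) :
    ∃ (P Pi : Matrix (Fin 2) (Fin 2) Ω) (h : P * Pi = 1),
      ∀ g i j, (conjHom (ℓ := ℓ) P Pi h (ρ g).val) i j ∈ (algebraMap (ZMod ℓ) Ω).fieldRange := by
  obtain ⟨x, hxA, hx, hdx⟩ := exists_singular (ℓ := ℓ) ρ hfin hno
  obtain ⟨e, heA, hde, hte⟩ := exists_idem ρ htr hno hxA hx hdx
  obtain ⟨u, w, hdt, hw0, heP, a1, ha1A, ha1P⟩ := exists_basis ρ hno heA hde hte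
  have hdetP : IsUnit (colMat u w).det := by
    rw [det_colMat]; exact isUnit_iff_ne_zero.mpr hdt
  have h : colMat u w * (colMat u w)⁻¹ = 1 := Matrix.mul_nonsing_inv _ hdetP
  have h' : (colMat u w)⁻¹ * colMat u w = 1 := Matrix.nonsing_inv_mul _ hdetP
  refine ⟨colMat u w, (colMat u w)⁻¹, h, ?_⟩
  have hB : ∀ b ∈ (spanAlg ℓ ρ).map (conjHom (ℓ := ℓ) (colMat u w) (colMat u w)⁻¹ h),
      b.trace ∈ (algebraMap (ZMod ℓ) Ω).fieldRange := by
    rintro b ⟨a, haA, rfl⟩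
    show (conjHom (ℓ := ℓ) (colMat u w) (colMat u w)⁻¹ h a).trace ∈ _
    rw [trace_conjHom]
    exact trace_mem_of_mem_spanAlg ρ htr haA
  have h11 : (E11 : Matrix (Fin 2) (Fin 2) Ω) ∈
      (spanAlg ℓ ρ).map (conjHom (ℓ := ℓ) (colMat u w) (colMat u w)⁻¹ h) := by
    refine ⟨e, heA, ?_⟩
    show conjHom (ℓ := ℓ) (colMat u w) (colMat u w)⁻¹ h e = E11
    rw [conjHom_apply, mul_assoc, heP, ← mul_assoc, h', one_mul]
  have h21 : (E21 : Matrix (Fin 2) (Fin 2) Ω) ∈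
      (spanAlg ℓ ρ).map (conjHom (ℓ := ℓ) (colMat u w) (colMat u w)⁻¹ h) := by
    refine ⟨a1, ha1A, ?_⟩
    show conjHom (ℓ := ℓ) (colMat u w) (colMat u w)⁻¹ h a1 = E21
    rw [conjHom_apply, mul_assoc, ha1P, ← mul_assoc, h', one_mul]
  have hmemB : ∀ g, conjHom (ℓ := ℓ) (colMat u w) (colMat u w)⁻¹ h (ρ g).val ∈
      (spanAlg ℓ ρ).map (conjHom (ℓ := ℓ) (colMat u w) (colMat u w)⁻¹ h) :=
    fun g => ⟨(ρ g).val, matHom_mem_spanAlg ρ g, rfl⟩
  obtain ⟨g2, hg2⟩ : ∃ g2, (conjHom (ℓ := ℓ) (colMat u w) (colMat u w)⁻¹ h (ρ g2).val) 0 1 ≠ 0 := by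
    by_contra hcon
    simp only [not_exists, not_not] at hcon
    apply hno
    refine ⟨w, hw0, fun g => ?_⟩
    refine ⟨(conjHom (ℓ := ℓ) (colMat u w) (colMat u w)⁻¹ h (ρ g).val) 1 1, ?_⟩
    have hPS : colMat u w * (conjHom (ℓ := ℓ) (colMat u w) (colMat u w)⁻¹ h (ρ g).val)
        = (ρ g).val * colMat u w := by
      rw [conjHom_apply, ← mul_assoc, ← mul_assoc, h, one_mul]
    have hcol : (conjHom (ℓ := ℓ) (colMat u w) (colMat u w)⁻¹ h (ρ g).val) *ᵥ ![0, 1]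
        = ![0, (conjHom (ℓ := ℓ) (colMat u w) (colMat u w)⁻¹ h (ρ g).val) 1 1] := by
      funext i
      fin_cases i
      · simpa [Matrix.mulVec, dotProduct, Fin.sum_univ_two] using hcon g
      · simp [Matrix.mulVec, dotProduct, Fin.sum_univ_two]
    have hw1 : colMat u w *ᵥ ![0, 1] = w := by
      rw [colMat_mulVec, zero_smul, one_smul, zero_add]
    calc (ρ g).val *ᵥ w = (ρ g).val *ᵥ (colMat u w *ᵥ ![0, 1]) := by rw [hw1]
      _ = ((ρ g).val * colMat u w) *ᵥ ![0, 1] := by rw [Matrix.mulVec_mulVec]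
      _ = colMat u w *ᵥ ((conjHom (ℓ := ℓ) (colMat u w) (colMat u w)⁻¹ h (ρ g).val) *ᵥ ![0, 1]) := by
          rw [← hPS, Matrix.mulVec_mulVec]
      _ = _ := by rw [hcol, colMat_mulVec, zero_smul, zero_add]
  intro g i j
  exact entries_mem _ hB h11 h21 (hmemB g2) hg2 (hmemB g) i j

/-- **Case (II)**: two characters with sum and product in `𝔽_ℓ`. -/
theorem exists_sigma_of_chars (χ1 χ2 : G →* Ωˣ)
    (hs : ∀ g, ((χ1 g : Ω) + (χ2 g : Ω)) ∈ (algebraMap (ZMod ℓ) Ω).fieldRange)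
    (hp : ∀ g, ((χ1 g : Ω) * (χ2 g : Ω)) ∈ (algebraMap (ZMod ℓ) Ω).fieldRange) :
    ∃ σ : G →* Matrix (Fin 2) (Fin 2) Ω,
      (∀ g i j, σ g i j ∈ (algebraMap (ZMod ℓ) Ω).fieldRange) ∧
      (∀ g, (σ g).trace = (χ1 g : Ω) + χ2 g) ∧ (∀ g, (σ g).det = (χ1 g : Ω) * χ2 g) ∧
      (∀ g, χ1 g = 1 → χ2 g = 1 → σ g = 1) := by
  have hchar : CharP Ω ℓ := charP_of_zmodAlgebra
  by_cases hA : ∀ g, (χ1 g : Ω) ^ ℓ = χ1 g
  · refine ⟨diagConj 1 1 (one_mul 1) χ1 χ2, ?_, diagConj_trace _ _ _ _ _, diagConj_det _ _ _ _ _,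
      diagConj_eq_one _ _ _ _ _⟩
    intro g i j
    rw [diagConj_apply, one_mul, mul_one]
    have h1 : (χ1 g : Ω) ∈ (algebraMap (ZMod ℓ) Ω).fieldRange := mem_fieldRange_iff_pow.mpr (hA g)
    have h2 : (χ2 g : Ω) ∈ (algebraMap (ZMod ℓ) Ω).fieldRange := by
      have : (χ2 g : Ω) = ((χ1 g : Ω) + χ2 g) - χ1 g := by ring
      rw [this]
      exact sub_mem (hs g) h1
    fin_cases i <;> fin_cases j
    · simpa [dg] using h1
    · simp [dg]
    · simp [dg]
    · simpa [dg] using h2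
  · have hB : ∀ g, (χ1 g : Ω) ^ ℓ = χ2 g := (char_dichotomy χ1 χ2 hs hp).resolve_left hA
    have hB' : ∀ g, (χ2 g : Ω) ^ ℓ = χ1 g := by
      intro g
      have := mem_fieldRange_iff_pow.mp (hs g)
      rw [add_pow_char, hB g] at this
      linear_combination this
    rw [not_forall] at hA
    obtain ⟨g0, hg0⟩ := hA
    have hne : (χ2 g0 : Ω) - χ1 g0 ≠ 0 := by
      intro h
      apply hg0
      rw [hB g0]
      exact sub_eq_zero.mp h
    refine ⟨diagConj _ _ (caseB_inv (χ1 g0 : Ω) (χ2 g0 : Ω) hne) χ1 χ2, ?_,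
      diagConj_trace _ _ _ _ _, diagConj_det _ _ _ _ _, diagConj_eq_one _ _ _ _ _⟩
    intro g i j
    rw [diagConj_apply]
    exact entries_caseB _ _ _ _ (hB g0) (hB' g0) (hB g) (hB' g) hne i j

/-- over an algebraically closed field: a matrix-valued hom with entries in `𝔽_ℓ` and the same
traces, determinants, and a kernel containing that of `ρ` -/
theorem exists_sigma [IsAlgClosed Ω] (ρ : G →* GL (Fin 2) Ω) (hfin : (Set.range ρ).Finite)
    (htr : ∀ g, (ρ g).val.trace ∈ (algebraMap (ZMod ℓ) Ω).fieldRange)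
    (hdet : ∀ g, (ρ g).val.det ∈ (algebraMap (ZMod ℓ) Ω).fieldRange) :
    ∃ σ : G →* Matrix (Fin 2) (Fin 2) Ω,
      (∀ g i j, σ g i j ∈ (algebraMap (ZMod ℓ) Ω).fieldRange) ∧
      (∀ g, (σ g).trace = (ρ g).val.trace) ∧ (∀ g, (σ g).det = (ρ g).val.det) ∧
      (∀ g, ρ g = 1 → σ g = 1) := by
  by_cases hE : HasCommonEig ρ
  · obtain ⟨χ1, χ2, hsum, hprod, hker⟩ := exists_chars_of_commonEig ρ hE
    obtain ⟨σ, h1, h2, h3, h4⟩ := exists_sigma_of_chars (ℓ := ℓ) χ1 χ2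
      (fun g => by rw [hsum]; exact htr g) (fun g => by rw [hprod]; exact hdet g)
    refine ⟨σ, h1, fun g => by rw [h2, hsum], fun g => by rw [h3, hprod], fun g hg => ?_⟩
    exact h4 g (hker g hg).1 (hker g hg).2
  · obtain ⟨P, Pi, h, hent⟩ := exists_conj_of_not_commonEig (ℓ := ℓ) ρ hfin htr hE
    refine ⟨(MonoidHomClass.toMonoidHom (conjHom (ℓ := ℓ) P Pi h)).comp (matHom ρ), hent,
      fun g => trace_conjHom (ℓ := ℓ) P Pi h _, fun g => ?_, fun g hg => ?_⟩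
    · show (conjHom (ℓ := ℓ) P Pi h (ρ g).val).det = _
      have hd : P.det * Pi.det = 1 := by rw [← Matrix.det_mul, h, Matrix.det_one]
      rw [conjHom_apply, Matrix.det_mul, Matrix.det_mul]
      linear_combination (ρ g).val.det * hd
    · show conjHom (ℓ := ℓ) P Pi h (ρ g).val = 1
      rw [hg, Units.val_one, map_one]

/-- a matrix-valued hom with entries in `𝔽_ℓ` comes from a hom into `GL₂(𝔽_ℓ)` -/
theorem exists_lift_of_entries (σ : G →* Matrix (Fin 2) (Fin 2) Ω)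
    (h : ∀ g i j, σ g i j ∈ (algebraMap (ZMod ℓ) Ω).fieldRange) :
    ∃ ρ' : G →* GL (Fin 2) (ZMod ℓ), ∀ g, ((ρ' g).val).map (algebraMap (ZMod ℓ) Ω) = σ g := by
  choose m hm using h
  have hM : ∀ g, (Matrix.of (m g)).map (algebraMap (ZMod ℓ) Ω) = σ g := by
    intro g
    ext i j
    exact hm g i j
  have inj : Function.Injective
      (fun A : Matrix (Fin 2) (Fin 2) (ZMod ℓ) => A.map (algebraMap (ZMod ℓ) Ω)) :=
    Matrix.map_injective (algebraMap (ZMod ℓ) Ω).injective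
  have M_one : Matrix.of (m 1) = (1 : Matrix (Fin 2) (Fin 2) (ZMod ℓ)) := by
    apply inj
    show (Matrix.of (m 1)).map (algebraMap (ZMod ℓ) Ω) = (1 : Matrix (Fin 2) (Fin 2) (ZMod ℓ)).map _
    rw [hM, map_one, Matrix.map_one _ (map_zero _) (map_one _)]
  have M_mul : ∀ g g', Matrix.of (m (g * g')) = Matrix.of (m g) * Matrix.of (m g') := by
    intro g g'
    apply inj
    show (Matrix.of (m (g * g'))).map (algebraMap (ZMod ℓ) Ω)
      = (Matrix.of (m g) * Matrix.of (m g')).map _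
    rw [hM, Matrix.map_mul, hM, hM, map_mul]
  let ρ0 : G →* Matrix (Fin 2) (Fin 2) (ZMod ℓ) :=
    { toFun := fun g => Matrix.of (m g), map_one' := M_one, map_mul' := M_mul }
  exact ⟨ρ0.toHomUnits, fun g => hM g⟩

/-- **Descent over an algebraically closed field.** -/
theorem descent_algClosed [IsAlgClosed Ω] (ρ : G →* GL (Fin 2) Ω) (hfin : (Set.range ρ).Finite)
    (htr : ∀ g, (ρ g).val.trace ∈ Set.range (algebraMap (ZMod ℓ) Ω))
    (hdet : ∀ g, (ρ g).val.det ∈ Set.range (algebraMap (ZMod ℓ) Ω)) :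
    ∃ ρ' : G →* GL (Fin 2) (ZMod ℓ), ∀ g,
      algebraMap (ZMod ℓ) Ω (ρ' g).val.trace = (ρ g).val.trace ∧
      algebraMap (ZMod ℓ) Ω (ρ' g).val.det = (ρ g).val.det ∧ (ρ g = 1 → ρ' g = 1) := by
  obtain ⟨σ, h1, h2, h3, h4⟩ := exists_sigma (ℓ := ℓ) ρ hfin htr hdet
  obtain ⟨ρ', hρ'⟩ := exists_lift_of_entries σ h1
  refine ⟨ρ', fun g => ⟨?_, ?_, fun hg => ?_⟩⟩
  · rw [← h2, ← hρ', AddMonoidHom.map_trace]
  · rw [← h3, ← hρ', RingHom.map_det, RingHom.mapMatrix_apply]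
  · apply Units.ext
    apply Matrix.map_injective (algebraMap (ZMod ℓ) Ω).injective
    show ((ρ' g).val).map (algebraMap (ZMod ℓ) Ω)
      = ((1 : GL (Fin 2) (ZMod ℓ)).val).map (algebraMap (ZMod ℓ) Ω)
    rw [hρ', h4 g hg, Units.val_one, Matrix.map_one _ (map_zero _) (map_one _)]

end Assembly

section Final

variable {ℓ : ℕ} [Fact ℓ.Prime] {K : Type*} [Field K] [Algebra (ZMod ℓ) K] {G : Type*} [Group G]

/-- **Descent (g6), general form**: a two-dimensional representation with finite image over a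
field `K` of characteristic `ℓ`, all of whose traces and determinants lie in `𝔽_ℓ`, has a model
over `𝔽_ℓ` with the same traces and determinants and a kernel containing `ker ρ`. -/
theorem descent_of_finite_range (ρ : G →* GL (Fin 2) K) (hfin : (Set.range ρ).Finite)
    (htr : ∀ g, (ρ g).val.trace ∈ Set.range (algebraMap (ZMod ℓ) K))
    (hdet : ∀ g, (ρ g).val.det ∈ Set.range (algebraMap (ZMod ℓ) K)) :
    ∃ ρ' : G →* GL (Fin 2) (ZMod ℓ), ∀ g,
      algebraMap (ZMod ℓ) K (ρ' g).val.trace = (ρ g).val.trace ∧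
      algebraMap (ZMod ℓ) K (ρ' g).val.det = (ρ g).val.det ∧ (ρ g = 1 → ρ' g = 1) := by
  have hinj : Function.Injective (algebraMap K (AlgebraicClosure K)) :=
    (algebraMap K (AlgebraicClosure K)).injective
  have hval : ∀ g, ((Matrix.GeneralLinearGroup.map (algebraMap K (AlgebraicClosure K))) (ρ g)).val
      = (ρ g).val.map (algebraMap K (AlgebraicClosure K)) := fun g => rfl
  have htrΩ : ∀ g, ((Matrix.GeneralLinearGroup.map (algebraMap K (AlgebraicClosure K)))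
      (ρ g)).val.trace = algebraMap K (AlgebraicClosure K) (ρ g).val.trace := by
    intro g
    rw [hval, AddMonoidHom.map_trace]
  have hdetΩ : ∀ g, ((Matrix.GeneralLinearGroup.map (algebraMap K (AlgebraicClosure K)))
      (ρ g)).val.det = algebraMap K (AlgebraicClosure K) (ρ g).val.det := by
    intro g
    rw [hval, RingHom.map_det, RingHom.mapMatrix_apply]
  obtain ⟨ρ', hρ'⟩ := descent_algClosed (ℓ := ℓ) (Ω := AlgebraicClosure K)
    ((Matrix.GeneralLinearGroup.map (algebraMap K (AlgebraicClosure K))).comp ρ)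
    (by
      have : Set.range ((Matrix.GeneralLinearGroup.map
          (algebraMap K (AlgebraicClosure K))).comp ρ)
          = (Matrix.GeneralLinearGroup.map (algebraMap K (AlgebraicClosure K))) '' Set.range ρ := by
        ext x
        simp
      rw [this]
      exact hfin.image _)
    (fun g => by
      obtain ⟨t, ht⟩ := htr g
      refine ⟨t, ?_⟩
      show _ = ((Matrix.GeneralLinearGroup.map (algebraMap K (AlgebraicClosure K))) (ρ g)).val.trace
      rw [htrΩ, ← ht, ← IsScalarTower.algebraMap_apply])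
    (fun g => by
      obtain ⟨d, hd⟩ := hdet g
      refine ⟨d, ?_⟩
      show _ = ((Matrix.GeneralLinearGroup.map (algebraMap K (AlgebraicClosure K))) (ρ g)).val.det
      rw [hdetΩ, ← hd, ← IsScalarTower.algebraMap_apply])
  refine ⟨ρ', fun g => ?_⟩
  obtain ⟨h1, h2, h3⟩ := hρ' g
  refine ⟨?_, ?_, fun hg => ?_⟩
  · apply hinj
    rw [← IsScalarTower.algebraMap_apply, h1]
    exact htrΩ g
  · apply hinj
    rw [← IsScalarTower.algebraMap_apply, h2]
    exact hdetΩ g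
  · apply h3
    show (Matrix.GeneralLinearGroup.map (algebraMap K (AlgebraicClosure K))) (ρ g) = 1
    rw [hg, map_one]

/-- **Descent (g6)** in the shape asked for by S48-TOP: `K` a finite field of characteristic `ℓ`. -/
theorem descent_fl [Finite K] (ρ : G →* GL (Fin 2) K)
    (htr : ∀ g, (ρ g).val.trace ∈ Set.range (algebraMap (ZMod ℓ) K))
    (hdet : ∀ g, (ρ g).val.det ∈ Set.range (algebraMap (ZMod ℓ) K)) :
    ∃ ρ' : G →* GL (Fin 2) (ZMod ℓ), ∀ g,
      algebraMap (ZMod ℓ) K (ρ' g).val.trace = (ρ g).val.trace ∧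
      algebraMap (ZMod ℓ) K (ρ' g).val.det = (ρ g).val.det ∧ (ρ g = 1 → ρ' g = 1) :=
  descent_of_finite_range ρ (Set.toFinite _) htr hdet

end Final

end Fermat.Agent.DS.G6
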