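import Mathlib
import Fermat.Agent.DS.G6.Descent
import Fermat.Agent.DS.N4.Semisimple

set_option autoImplicit false

open Matrix

namespace Fermat.Agent.DS.G6

open Fermat.Agent.DS.N4

variable {K : Type*} [Field K] {G : Type*} [Group G]

/-- **Semisimplification in dimension two**, in the shape consumed by `N4.grp_gate`: every
`ρ : G →* GL₂(K)` has a companion `ρ'` with semisimple image (`IsSemisimpleGL2`), the same
characteristic polynomials (so the same traces and determinants) and `ker ρ ⊆ ker ρ'`.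
`ρ' = ρ` if `ρ` has no common eigenvector over `K`, and `ρ' = diag(χ₁, χ₂)` otherwise. -/
theorem exists_semisimplification (ρ : G →* GL (Fin 2) K) :
    ∃ ρ' : G →* GL (Fin 2) K, IsSemisimpleGL2 ρ'.range ∧
      (∀ g, (ρ' g).val.trace = (ρ g).val.trace) ∧ (∀ g, (ρ' g).val.det = (ρ g).val.det) ∧
      (∀ g, (ρ' g).val.charpoly = (ρ g).val.charpoly) ∧ (∀ g, ρ g = 1 → ρ' g = 1) := by
  by_cases h : HasCommonEig ρ
  · obtain ⟨χ1, χ2, hsum, hprod, hker⟩ := exists_chars_of_commonEig ρ h
    have hval : ∀ g, ((diagConj 1 1 (one_mul 1) χ1 χ2).toHomUnits g).val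
        = dg (χ1 g : K) (χ2 g : K) := by
      intro g
      show diagConj 1 1 (one_mul 1) χ1 χ2 g = _
      rw [diagConj_apply, one_mul, mul_one]
    have htr : ∀ g, ((diagConj 1 1 (one_mul 1) χ1 χ2).toHomUnits g).val.trace
        = (ρ g).val.trace := by
      intro g
      show (diagConj 1 1 (one_mul 1) χ1 χ2 g).trace = _
      rw [diagConj_trace, hsum]
    have hdet : ∀ g, ((diagConj 1 1 (one_mul 1) χ1 χ2).toHomUnits g).val.det
        = (ρ g).val.det := by
      intro g
      show (diagConj 1 1 (one_mul 1) χ1 χ2 g).det = _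
      rw [diagConj_det, hprod]
    refine ⟨(diagConj 1 1 (one_mul 1) χ1 χ2).toHomUnits, ?_, htr, hdet, ?_, ?_⟩
    · apply isSemisimpleGL2_of_diagonal
      rintro _ ⟨g, rfl⟩
      rw [hval]
      simp [dg]
    · intro g
      rw [Matrix.charpoly_fin_two, Matrix.charpoly_fin_two, htr, hdet]
    · intro g hg
      apply Units.ext
      show diagConj 1 1 (one_mul 1) χ1 χ2 g = 1
      exact diagConj_eq_one _ _ _ _ _ g (hker g hg).1 (hker g hg).2
  · refine ⟨ρ, ?_, fun _ => rfl, fun _ => rfl, fun _ => rfl, fun _ hg => hg⟩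
    apply isSemisimpleGL2_of_no_common_eigvec
    intro v hv hcon
    exact h ⟨v, hv, fun g => hcon (ρ g) ⟨g, rfl⟩⟩

end Fermat.Agent.DS.G6
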