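/-
GATE-N / S48-TOP step (C), HEDGE (helper83): from `GateModL'` (mod `ℓ` representations with the
right Frobenius traces and determinants, board 3384 (B)) and `GateSparse` (the `a p` take finitely
many values outside a set of primes of upper density `≤ 1/4`) to `BoundedModL` = the `hMod` binder
of `DS/N6/Final.s48_of_gates`: the same representations, semisimplified, have image of order
`≤ 240 · |Y| · |Yε|`.

Inputs: `N8.card_le_of_frob_subset` (Chebotarev, helper1), `N4.grp_gate_card_le` (Deligne–Serre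
Prop. 7.2, helper6), `G6.exists_semisimplification`.
-/
import Mathlib
import Fermat.Prelude.Def_GaloisRep_Residual
import Fermat.Agent.DS.G6.Semisimplify
import Fermat.Agent.DS.N8.ChebAdapter

set_option autoImplicit false

open NumberField Polynomial

namespace Fermat.Agent.DS.G6

local notation "Γℚ" => (AlgebraicClosure ℚ ≃ₐ[ℚ] AlgebraicClosure ℚ)

open Fermat.Agent.DS.N4 Fermat.Agent.DS.N8

/-- the kernel clause transfers "finite level" -/
theorem finiteLevel_of_ker {M M' : Type} [MulOneClass M] [MulOneClass M'] (ρ : Γℚ →* M)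
    (ρ' : Γℚ →* M') (hρ : GaloisFactorsThroughFiniteLevel ρ) (h : ∀ σ, ρ σ = 1 → ρ' σ = 1) :
    GaloisFactorsThroughFiniteLevel ρ' := by
  obtain ⟨L, hL, hker⟩ := hρ
  exact ⟨L, hL, fun σ hσ => h σ (hker σ hσ)⟩

/-- **The bound for one `ℓ`** (Deligne–Serre §8, first half): a semisimple finite-level
`ρ : G_ℚ → GL₂(𝔽_ℓ)` whose Frobenius characteristic polynomials at the primes outside a set `X` of
upper density `≤ 1/4` (and outside a finite set `B`) are controlled by a key `κ p` in a finite set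
`Z` with at most `M` elements, `4M < ℓ`, has image of order at most `240 M`. -/
theorem card_range_le_of_sparse (hin : ChebInputs) {ℓ : ℕ} [Fact ℓ.Prime]
    (ρ : Γℚ →* GL (Fin 2) (ZMod ℓ)) (hρ : GaloisFactorsThroughFiniteLevel ρ)
    (hss : IsSemisimpleGL2 ρ.range) (B : Finset ℕ) (X : Set ℕ)
    (hX : UpperLogDensityLE X (1 / 4)) (M : ℕ) (hℓM : 4 * M < ℓ)
    {ι : Type*} (κ : ℕ → ι) (Z : Finset ι) (hZ : Z.card ≤ M)
    (hκ : ∀ p : ℕ, p.Prime → p ∉ B → p ∉ X → κ p ∈ Z)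
    (hcp : ∀ p p' : ℕ, p.Prime → p ∉ B → p ∉ X → p'.Prime → p' ∉ B → p' ∉ X → κ p = κ p' →
      ∀ (V V' : ValuationSubring (AlgebraicClosure ℚ)) (τ τ' : Γℚ), V.LiesOverPrime p →
        V.IsFrobeniusAt τ p → V'.LiesOverPrime p' → V'.IsFrobeniusAt τ' p' →
        (ρ τ).1.charpoly = (ρ τ').1.charpoly) :
    Nat.card ρ.range ≤ 240 * M := by
  classical
  -- the set of Frobenius characteristic polynomials at the good primes
  set CP : Set (ZMod ℓ)[X] := {c | ∃ p : ℕ, p.Prime ∧ p ∉ B ∧ p ∉ X ∧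
    ∃ (V : ValuationSubring (AlgebraicClosure ℚ)) (τ : Γℚ), V.LiesOverPrime p ∧
      V.IsFrobeniusAt τ p ∧ (ρ τ).1.charpoly = c} with hCP
  have hmaps : ∀ c ∈ CP, (fun c => if h : c ∈ CP then κ (Classical.choose h) else κ 0) c ∈
      (Z : Set ι) := by
    intro c hc
    simp only [dif_pos hc]
    obtain ⟨h1, h2, h3, -⟩ := Classical.choose_spec hc
    exact hκ _ h1 h2 h3
  have hinjOn : Set.InjOn (fun c => if h : c ∈ CP then κ (Classical.choose h) else κ 0) CP := by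
    intro c hc c' hc' hcc'
    simp only [dif_pos hc, dif_pos hc'] at hcc'
    obtain ⟨h1, h2, h3, V, τ, hV, hτ, hcharp⟩ := Classical.choose_spec hc
    obtain ⟨h1', h2', h3', V', τ', hV', hτ', hcharp'⟩ := Classical.choose_spec hc'
    rw [← hcharp, ← hcharp']
    exact hcp _ _ h1 h2 h3 h1' h2' h3' hcc' V V' τ τ' hV hτ hV' hτ'
  have hCPfin : CP.Finite := Set.Finite.of_injOn hmaps hinjOn Z.finite_toSet
  have hCPcard : CP.ncard ≤ M := by
    refine le_trans ?_ hZ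
    have : (Z : Set ι).ncard = Z.card := Set.ncard_coe_finset Z
    rw [← this]
    exact Set.ncard_le_ncard_of_injOn _ hmaps hinjOn Z.finite_toSet
  -- the finite group and the surjection
  have hfinG : Finite ρ.range := Finite.of_injective (fun g : ρ.range => (g : GL (Fin 2) (ZMod ℓ)))
    Subtype.val_injective
  have hπfin : GaloisFactorsThroughFiniteLevel ρ.rangeRestrict := by
    obtain ⟨L, hL, h⟩ := hρ
    exact ⟨L, hL, fun σ hσ => Subtype.ext (h σ hσ)⟩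
  -- the Frobenius values at good primes, and the complement of their conjugation closure
  set Fr : Set ρ.range := {g | ∃ p : ℕ, p.Prime ∧ p ∉ B ∧ p ∉ X ∧
    ∃ (V : ValuationSubring (AlgebraicClosure ℚ)) (τ : Γℚ), V.LiesOverPrime p ∧
      V.IsFrobeniusAt τ p ∧ ρ.rangeRestrict τ = g} with hFr
  set C : Set ρ.range := {g | ∀ h : ρ.range, h * g * h⁻¹ ∉ Fr} with hC
  have hCconj : ∀ g h : ρ.range, g ∈ C → h * g * h⁻¹ ∈ C := by
    intro g h hg k hk
    apply hg (k * h)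
    have : k * h * g * (k * h)⁻¹ = k * (h * g * h⁻¹) * k⁻¹ := by group
    rw [this]
    exact hk
  have hCcard : (C.ncard : ℝ) ≤ 1 / 4 * (Nat.card ρ.range : ℝ) := by
    refine card_le_of_frob_subset hin ρ.rangeRestrict hπfin ρ.rangeRestrict_surjective C hCconj B X
      (1 / 4) hX ?_
    rintro p hp hpB ⟨V, τ, hV, hτ, hmem⟩
    by_contra hpX
    have h1 := hmem 1
    rw [one_mul, inv_one, mul_one] at h1
    exact h1 ⟨p, hp, hpB, hpX, V, τ, hV, hτ, rfl⟩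
  -- the set `H`
  set H : Set (GL (Fin 2) (ZMod ℓ)) := (fun g : ρ.range => (g : GL (Fin 2) (ZMod ℓ))) '' Cᶜ with hH
  have hHG : H ⊆ ρ.range := by
    rintro _ ⟨g, -, rfl⟩
    exact g.2
  have hHcard : H.ncard = Cᶜ.ncard := Set.ncard_image_of_injective _ Subtype.val_injective
  have hsum : C.ncard + Cᶜ.ncard = Nat.card ρ.range := Set.ncard_add_ncard_compl C
  have hHbig : (1 - 1 / 4 : ℝ) * (Nat.card ρ.range : ℝ) ≤ (H.ncard : ℝ) := by
    have : (C.ncard : ℝ) + (Cᶜ.ncard : ℝ) = (Nat.card ρ.range : ℝ) := by exact_mod_cast hsum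
    rw [hHcard]
    linarith
  have hHcp : ((fun g : GL (Fin 2) (ZMod ℓ) => g.1.charpoly) '' H).ncard ≤ M := by
    refine le_trans (Set.ncard_le_ncard ?_ ?_) hCPcard
    · rintro _ ⟨_, ⟨g, hg, rfl⟩, rfl⟩
      have hg' : ¬ ∀ h : ρ.range, h * g * h⁻¹ ∉ Fr := hg
      rw [not_forall] at hg'
      obtain ⟨h, hh⟩ := hg'
      rw [not_not] at hh
      obtain ⟨p, hp, hpB, hpX, V, τ, hV, hτ, hval⟩ := hh
      refine ⟨p, hp, hpB, hpX, V, τ, hV, hτ, ?_⟩
      have h1 : (ρ τ : GL (Fin 2) (ZMod ℓ)) = (h : GL (Fin 2) (ZMod ℓ)) * g * (h : GL (Fin 2) (ZMod ℓ))⁻¹ := by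
        have := congrArg (fun x : ρ.range => (x : GL (Fin 2) (ZMod ℓ))) hval
        simpa using this
      show (ρ τ).1.charpoly = (g : GL (Fin 2) (ZMod ℓ)).1.charpoly
      rw [h1]
      have := Matrix.charpoly_units_conj (h : GL (Fin 2) (ZMod ℓ)) (g : GL (Fin 2) (ZMod ℓ)).1
      rw [← this]
      congr 1
      simp [Matrix.coe_units_inv]
    · exact hCPfin
  have hbound := grp_gate_card_le ℓ ρ.range hss H hHG M hHcp (1 / 4) (by norm_num) (by norm_num)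
    hHbig hℓM
  have h240 : (Nat.card ρ.range : ℝ) ≤ 240 * (M : ℝ) := by
    have : 120 * (M : ℝ) / (1 - 2 * (1 / 4)) = 240 * (M : ℝ) := by ring
    rw [this] at hbound
    exact hbound
  exact_mod_cast h240

/-- **BoundedModL from GateModL' and GateSparse** = the `hMod` binder of
`DS/N6/Final.s48_of_gates` with `A := 240 · |Y| · |Yε|` (S48-TOP board 3384, step (C)). -/
theorem boundedModL_of_gateModL (hin : ChebInputs) (N : ℕ) (hN : N ≠ 0) (a e : ℕ → ℂ)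
    (Y Ye : Finset ℂ) (X : Set ℕ) (hX : UpperLogDensityLE X (1 / 4))
    (hY : ∀ p : ℕ, p.Prime → ¬ p ∣ N → p ∉ X → a p ∈ Y)
    (hYe : ∀ p : ℕ, p.Prime → ¬ p ∣ N → e p ∈ Ye)
    (hModL : ∀ (E : IntermediateField ℚ ℂ) [NumberField E] (a' e' : ℕ → 𝓞 E),
      (∀ p : ℕ, p.Prime → ¬ p ∣ N → ((a' p : E) : ℂ) = a p) →
      (∀ p : ℕ, p.Prime → ¬ p ∣ N → ((e' p : E) : ℂ) = e p) →
      ∃ ℓ₀ : ℕ, ∀ ℓ : ℕ, ℓ.Prime → ℓ₀ ≤ ℓ → ¬ ℓ ∣ N → ∀ φ : 𝓞 E →+* ZMod ℓ,
        ∃ ρbar : Γℚ →* GL (Fin 2) (ZMod ℓ), GaloisFactorsThroughFiniteLevel ρbar ∧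
          ∀ p : ℕ, p.Prime → ¬ p ∣ N → p ≠ ℓ →
            ∀ V : ValuationSubring (AlgebraicClosure ℚ), V.LiesOverPrime p →
              (∀ σ ∈ V.inertiaSubgroupIn ℚ, ρbar σ = 1) ∧
              ∀ τ : Γℚ, V.IsFrobeniusAt τ p →
                ((ρbar τ : GL (Fin 2) (ZMod ℓ)) : Matrix (Fin 2) (Fin 2) (ZMod ℓ)).trace =
                  φ (a' p) ∧
                ((ρbar τ : GL (Fin 2) (ZMod ℓ)) : Matrix (Fin 2) (Fin 2) (ZMod ℓ)).det =
                  φ (e' p)) :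
    ∀ (E : IntermediateField ℚ ℂ) [NumberField E] (a' e' : ℕ → 𝓞 E),
      (∀ p : ℕ, p.Prime → ¬ p ∣ N → ((a' p : E) : ℂ) = a p) →
      (∀ p : ℕ, p.Prime → ¬ p ∣ N → ((e' p : E) : ℂ) = e p) →
      ∃ ℓ₀ : ℕ, ∀ ℓ : ℕ, ℓ.Prime → ℓ₀ ≤ ℓ → ¬ ℓ ∣ N → ∀ φ : 𝓞 E →+* ZMod ℓ,
        ∃ ρbar : Γℚ →* GL (Fin 2) (ZMod ℓ), GaloisFactorsThroughFiniteLevel ρbar ∧
          Nat.card ρbar.range ≤ 240 * (Y.card * Ye.card) ∧
          ∀ p : ℕ, p.Prime → ¬ p ∣ N → p ≠ ℓ →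
            ∀ V : ValuationSubring (AlgebraicClosure ℚ), V.LiesOverPrime p →
              (∀ σ ∈ V.inertiaSubgroupIn ℚ, ρbar σ = 1) ∧
              ∀ τ : Γℚ, V.IsFrobeniusAt τ p →
                ((ρbar τ : GL (Fin 2) (ZMod ℓ)) : Matrix (Fin 2) (Fin 2) (ZMod ℓ)).trace =
                  φ (a' p) ∧
                ((ρbar τ : GL (Fin 2) (ZMod ℓ)) : Matrix (Fin 2) (Fin 2) (ZMod ℓ)).det =
                  φ (e' p) := by
  intro E _ a' e' ha' he'
  obtain ⟨ℓ₀, h⟩ := hModL E a' e' ha' he'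
  refine ⟨max ℓ₀ (4 * (Y.card * Ye.card) + 1), fun ℓ hℓ hℓ₀ hℓN φ => ?_⟩
  have : Fact ℓ.Prime := ⟨hℓ⟩
  obtain ⟨ρ0, hfin0, hloc0⟩ := h ℓ hℓ (le_trans (le_max_left _ _) hℓ₀) hℓN φ
  obtain ⟨ρ, hss, htr, hdet, hcharp, hker⟩ := exists_semisimplification ρ0
  have hinj : ∀ x y : 𝓞 E, (((x : E) : ℂ) = ((y : E) : ℂ)) → x = y := by
    intro x y hxy
    exact RingOfIntegers.coe_injective (Subtype.val_injective hxy)
  have hgood : ∀ p : ℕ, p.Prime → p ∉ insert ℓ N.primeFactors → ¬ p ∣ N ∧ p ≠ ℓ := by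
    intro p hp hpB
    rw [Finset.mem_insert, not_or] at hpB
    refine ⟨fun hd => hpB.2 (Nat.mem_primeFactors.mpr ⟨hp, hd, hN⟩), hpB.1⟩
  refine ⟨ρ, finiteLevel_of_ker ρ0 ρ hfin0 hker, ?_, ?_⟩
  · refine card_range_le_of_sparse hin ρ (finiteLevel_of_ker ρ0 ρ hfin0 hker) hss
      (insert ℓ N.primeFactors) X hX (Y.card * Ye.card)
      (lt_of_lt_of_le (Nat.lt_succ_self _) (le_trans (le_max_right _ _) hℓ₀))
      (fun p => (a p, e p)) (Y ×ˢ Ye) (by rw [Finset.card_product]) ?_ ?_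
    · intro p hp hpB hpX
      obtain ⟨hpN, -⟩ := hgood p hp hpB
      exact Finset.mem_product.mpr ⟨hY p hp hpN hpX, hYe p hp hpN⟩
    · intro p p' hp hpB _ hp' hpB' _ hκ V V' τ τ' hV hτ hV' hτ'
      obtain ⟨hpN, hpℓ⟩ := hgood p hp hpB
      obtain ⟨hpN', hpℓ'⟩ := hgood p' hp' hpB'
      have ha : a' p = a' p' := by
        apply hinj
        rw [ha' p hp hpN, ha' p' hp' hpN']
        exact congrArg Prod.fst hκ
      have he : e' p = e' p' := by
        apply hinj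
        rw [he' p hp hpN, he' p' hp' hpN']
        exact congrArg Prod.snd hκ
      obtain ⟨t1, d1⟩ := (hloc0 p hp hpN hpℓ V hV).2 τ hτ
      obtain ⟨t2, d2⟩ := (hloc0 p' hp' hpN' hpℓ' V' hV').2 τ' hτ'
      rw [hcharp, hcharp, Matrix.charpoly_fin_two, Matrix.charpoly_fin_two, t1, d1, t2, d2, ha, he]
  · intro p hp hpN hpℓ V hV
    obtain ⟨hI, hF⟩ := hloc0 p hp hpN hpℓ V hV
    refine ⟨fun σ hσ => hker σ (hI σ hσ), fun τ hτ => ?_⟩
    obtain ⟨t1, d1⟩ := hF τ hτ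
    exact ⟨(htr τ).trans t1, (hdet τ).trans d1⟩

end Fermat.Agent.DS.G6
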